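import Fermat.Agent.ModField.Semistable.Mono.Eta.Flip
import Fermat.Agent.ModField.Semistable.Mono.Count

/-!
# The rank of inertia on the part of a system

The unit is `η(rz)^(2w) / η(qz)^(2w)`, of widths `w` prime to `p`.
-/

set_option autoImplicit false
set_option linter.style.haveILetI false
set_option linter.unusedSectionVars false
set_option synthInstance.maxHeartbeats 400000
set_option maxHeartbeats 1600000

noncomputable section

namespace FA.ModField

open ModularCurve AlgebraicCurve FA.Curve FA.CurveRed FA.CurveRed.ConstRed FA.JTorsion FA.Level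
  FibreHyp

local notation "Qb" => AlgebraicClosure ℚ

/-- The choice of the widths. -/
theorem exists_adm {M q p : ℕ} [NeZero M] (hq : q.Prime) (hp : p.Prime) (hqp : q ≠ p)
    (hg : GoodWidths M q p) :
    ∃ w m r : ℕ, r ≠ 0 ∧ r ∣ M ∧ EtaQ.Adm (M * q) w m r q ∧
      EtaQ.Adm (M * q) w m (r * q) 1 ∧ 0 < w ∧ ¬ p ∣ w := by
  have hcast : ∀ {m a b : ℕ}, a % m = b % m → (m : ℤ) ∣ (a : ℤ) - b := fun {m a b} h =>
    Int.modEq_iff_dvd.1 (Int.natCast_modEq_iff.2 h.symm)
  have hcop : ∀ {m a : ℕ}, (a % m).Coprime m → a.Coprime m := fun {m a} h => by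
    rwa [Nat.Coprime, Nat.gcd_comm, Nat.gcd_rec]
  rcases hg with h5 | ⟨rfl, r, hr, hrq⟩ | ⟨rfl, r, hr, hrq⟩
  · refine ⟨12, 1, 1, one_ne_zero, one_dvd M, ⟨rfl, Or.inl rfl, one_dvd _, dvd_mul_left q M,
      one_dvd _, Nat.coprime_one_right 1⟩, ⟨rfl, Or.inl rfl, ?_, one_dvd _, one_dvd _,
      Nat.coprime_one_right _⟩, by norm_num, fun h => ?_⟩
    · rw [one_mul]; exact dvd_mul_left q M
    · have h12 : p ∣ 2 * 2 * 3 := h
      rcases hp.dvd_mul.1 h12 with h' | h'
      · rcases hp.dvd_mul.1 h' with h'' | h'' <;> have := Nat.le_of_dvd (by norm_num) h'' <;> omega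
      · have := Nat.le_of_dvd (by norm_num) h'
        omega
  · have hq3 : q % 3 = 1 ∨ q % 3 = 2 := by
      have : q % 3 ≠ 0 := fun h => hqp
        ((Nat.prime_dvd_prime_iff_eq Nat.prime_three hq).1 (Nat.dvd_of_mod_eq_zero h)).symm
      omega
    have hrq1 : r * q % 3 = 1 := by
      rw [Nat.mul_mod, hrq]
      rcases hq3 with h | h <;> rw [h]
    refine ⟨4, 3, r, fun h => NeZero.ne M (by simpa [h] using hr), hr,
      ⟨rfl, Or.inr (Or.inl rfl), hr.trans (dvd_mul_right M q), dvd_mul_left q M, hcast hrq,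
        hcop ?_⟩,
      ⟨rfl, Or.inr (Or.inl rfl), mul_dvd_mul_right hr q, one_dvd _, hcast (by rw [hrq1]),
        hcop ?_⟩, by norm_num, by norm_num⟩
    · rw [hrq]; rcases hq3 with h | h <;> rw [h] <;> decide
    · rw [hrq1]; decide
  · have hq4 : q % 4 = 1 ∨ q % 4 = 3 := by
      have : q % 2 = 1 := (hq.eq_two_or_odd).resolve_left hqp
      omega
    have hrq1 : r * q % 4 = 1 := by
      rw [Nat.mul_mod, hrq]
      rcases hq4 with h | h <;> rw [h]
    refine ⟨3, 4, r, fun h => NeZero.ne M (by simpa [h] using hr), hr,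
      ⟨rfl, Or.inr (Or.inr rfl), hr.trans (dvd_mul_right M q), dvd_mul_left q M, hcast hrq,
        hcop ?_⟩,
      ⟨rfl, Or.inr (Or.inr rfl), mul_dvd_mul_right hr q, one_dvd _, hcast (by rw [hrq1]),
        hcop ?_⟩, by norm_num, by norm_num⟩
    · rw [hrq]; rcases hq4 with h | h <;> rw [h] <;> decide
    · rw [hrq1]; decide

variable [Algebra Qb ℂ] (M q : ℕ) [NeZero M] [hq : Fact q.Prime] [hq0 : NeZero q]
variable (A : ValuationSubring Qb) [IsAlgClosed (IsLocalRing.ResidueField A)]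
  [CharP (IsLocalRing.ResidueField A) q] (hqM : ¬ q ∣ M)
  (harch : ∀ c : Qb, c ≠ 0 → ∃ m : ℕ, A.valuation ((q : Qb) ^ m) < A.valuation c)

local notation "kA" => IsLocalRing.ResidueField A
local notation "πA" => IsLocalRing.residue A
local notation "CI" => cInf M q A πA IsLocalRing.residue_surjective residueAt_eq_zero hqM harch
local notation "Fb" => modularFunctionFieldFullC (IsLocalRing.ResidueField A) M

theorem exists_red_etaElt {w m a b : ℕ} [NeZero a] [NeZero b] (h : EtaQ.Adm (M * q) w m a b) :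
    ∃ r : Fb, r ≠ 0 ∧ (CI).Red (EtaQ.etaElt Qb h) r := by
  obtain ⟨r, hr, hred⟩ := X0.cInf_series M q A πA IsLocalRing.residue_surjective residueAt_eq_zero
    hqM harch (EtaQ.etaSer w a b m A) (f := EtaQ.etaElt Qb h)
    (EtaQ.coeffMap_etaSer w a b m _)
  refine ⟨r, fun h0 => EtaQ.etaSer_ne_zero w a b m kA ?_, hred⟩
  rw [← EtaQ.coeffMap_etaSer w a b m πA, ← hr, h0]
  rfl

theorem clean_etaElt {w m a b : ℕ} [NeZero a] [NeZero b] (h : EtaQ.Adm (M * q) w m a b)
    (s : (theFibre M q A hqM harch).Sg) :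
    (theFibre M q A hqM harch).CleanAt s (EtaQ.etaElt Qb h) := fun P hP => by
  refine EtaQ.ord_etaElt h ?_
  obtain ⟨c, -, hc⟩ := hP.inside
  have hx : X0.xX M q (L := Qb) ≠ 0 :=
    mul_ne_zero (X0.sideJ_ne_zero M q 0) (X0.sideJ_ne_zero M q 1)
  have h0 : 0 ≤ P.ord (X0.xX M q (L := Qb)) := (atLeast_iff hx).1 hc.atLeast
  have h1 := (X0.xX_regular M q hqM).1 h0 0
  rwa [X0.sideJ_zero, X0.jA_eq_levelJ] at h1

theorem exists_unitDatum {w m r : ℕ} [NeZero r] (hr : r ∣ M)
    (h : EtaQ.Adm (M * q) w m r q) (h' : EtaQ.Adm (M * q) w m (r * q) 1) (hw : 0 < w) :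
    ∃ U : (theFibre M q A hqM harch).UnitDatum (q : Qb), U.Δ = w ∧
      U.u = EtaQ.etaElt Qb h := by
  obtain ⟨d, hd, hW⟩ := EtaQ.exists_wLvl_etaElt (L := Qb) hqM hr h h'
  obtain ⟨r0, hr0, h0⟩ := exists_red_etaElt M q A hqM harch h
  obtain ⟨r1, hr1, h1⟩ := exists_red_etaElt M q A hqM harch h'
  have hd0 : d ≠ 0 := fun e => by
    rw [e, zero_pow h.m_ne] at hd
    exact pow_ne_zero (w * m) (Nat.cast_ne_zero.2 hq.out.ne_zero) hd.symm
  have hval : A.valuation d = A.valuation (q : Qb) ^ w := by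
    refine (pow_left_inj₀ zero_le' zero_le' h.m_ne).1 ?_
    rw [← map_pow, hd, map_pow, pow_mul]
  have hq1 : A.valuation (q : Qb) < 1 := by
    rw [← map_natCast A.subtype q]
    exact (residueAt_eq_zero (q : A)).1 (by rw [map_natCast, CharP.cast_eq_zero])
  exact ⟨{
    u := EtaQ.etaElt Qb h
    u_ne := EtaQ.etaElt_ne_zero h
    clean := clean_etaElt M q A hqM harch h
    d := d
    Δ := w
    Δ_pos := hw
    d_val := hval
    lt_one := hq1
    r := ![r0, r1]
    r_ne := Fin.forall_fin_two.2 ⟨hr0, hr1⟩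
    d_ne := hd0
    red0 := h0
    red1 := by
      show (cZero M q A πA IsLocalRing.residue_surjective residueAt_eq_zero hqM harch).Red _ r1
      rw [cZero_red, map_mul, AlgEquiv.commutes, hW, ← mul_assoc, ← map_mul,
        inv_mul_cancel₀ hd0, map_one, one_mul]
      exact h1 }, rfl, rfl⟩

theorem galAut_etaElt {w m a b : ℕ} [NeZero a] [NeZero b] (h : EtaQ.Adm (M * q) w m a b)
    (σ : GalQ) :
    galAut (M * q) Qb σ • EtaQ.etaElt Qb h = EtaQ.etaElt Qb h :=
  Subtype.ext (EtaQ.coeffMap_etaSer w a b m (σ : Qb →+* Qb))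

/-- **The rank of inertia at `q` on the part of a system of level `M q`.** -/
theorem monoAt_fact [NeZero (M * q)] (p : ℕ) [NeZero p] (k : Type) [Field k] (s : GalQ) (S : Finset ℕ)
    (χ : ℕ → k) : MonoAt M q p k A s S χ := by
  intro hq' hp hqp hqM hA hs hg hchar _ hne heven
  haveI : Fact p.Prime := ⟨hp⟩
  haveI := hchar
  haveI : Algebra.IsAlgebraic ℚ Qb := AlgebraicClosure.isAlgebraic ℚ
  have harch : ∀ c : Qb, c ≠ 0 → ∃ m : ℕ, A.valuation ((q : Qb) ^ m) < A.valuation c :=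
    fun c hc => exists_pow_lt_valuation hq' hA c hc
  obtain ⟨w, m, r, hr0, hr, h, h', hw, hpw⟩ := exists_adm hq' hp hqp hg
  haveI : NeZero r := ⟨hr0⟩
  obtain ⟨U, hΔ, hu⟩ := exists_unitDatum M q A hqM harch hr h h' hw
  refine monoAt_of_unit M q A hA hqM harch U ?_ p hqp (hΔ ▸ hpw) hs k S χ hne heven
  rintro T ⟨σ, -, rfl⟩
  rw [hu]
  exact galAut_etaElt M q h σ

end FA.ModField

namespace FA.ModField

local notation "Qb" => AlgebraicClosure ℚ

/-- **The rank of inertia at `q` on the part of a system, for all levels.** -/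
theorem monoAt [Algebra Qb ℂ] (M q : ℕ) [NeZero M] [NeZero (M * q)] (p : ℕ) [NeZero p] (k : Type)
    [Field k] (A : ValuationSubring Qb) (s : JTorsion.GalQ) (S : Finset ℕ) (χ : ℕ → k) :
    MonoAt M q p k A s S χ := fun hq hp hqp hqM hA => by
  haveI : Fact q.Prime := ⟨hq⟩
  haveI : NeZero q := ⟨hq.ne_zero⟩
  haveI : IsAlgClosed (IsLocalRing.ResidueField A) := FA.Frob.residueField_isAlgClosed A
  haveI : CharP (IsLocalRing.ResidueField A) q := residueAt_charP hA
  exact monoAt_fact M q A p k s S χ hq hp hqp hqM hA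

end FA.ModField
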