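import Fermat.Agent.ModField.ModFuns

/-!
# Upper triangular representatives
-/

set_option autoImplicit false
set_option linter.style.haveILetI false
set_option linter.unusedSectionVars false

noncomputable section

namespace FA.ModField.EtaQ

open UpperHalfPlane hiding I
open Complex CongruenceSubgroup
open scoped MatrixGroups Manifold

/-- `d γ z = g ((α z + β) / δ)` with `g` integral of determinant one. -/
theorem exists_upper_smul (d : ℕ) [NeZero d] (γ : SL(2, ℤ)) :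
    ∃ (a δ : ℕ) (b : ℤ) (g : SL(2, ℤ)), 0 < a ∧ a * δ = d ∧ ∀ z : ℍ, ∃ w : ℍ,
      (w : ℂ) = ((a : ℂ) * z + b) / δ ∧ scaleH d (γ • z) = g • w ∧
        denom g w * δ = ((γ 1 0 : ℤ) : ℂ) * z + ((γ 1 1 : ℤ) : ℂ) := by
  set A : ℤ := (d : ℤ) * γ 0 0 with hA
  set C : ℤ := γ 1 0 with hC
  have hdet : γ 0 0 * γ 1 1 - γ 0 1 * γ 1 0 = 1 := by
    have := γ.det_coe; rwa [Matrix.det_fin_two] at this
  have hd0 : (d : ℤ) ≠ 0 := by exact_mod_cast NeZero.ne d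
  set a := Int.gcd A C with ha
  have ha0 : 0 < a := by
    rw [ha, Nat.pos_iff_ne_zero]
    intro h
    obtain ⟨h1, h2⟩ := Int.gcd_eq_zero_iff.1 h
    rw [hA, mul_eq_zero, or_iff_right hd0] at h1
    rw [hC] at h2
    rw [h1, h2] at hdet
    simp at hdet
  obtain ⟨p, hp⟩ : (a : ℤ) ∣ A := Int.gcd_dvd_left _ _
  obtain ⟨r, hr⟩ : (a : ℤ) ∣ C := Int.gcd_dvd_right _ _
  obtain ⟨s, q, hsq⟩ : ∃ s q : ℤ, p * s - q * r = 1 := by
    refine ⟨Int.gcdA A C, -Int.gcdB A C, ?_⟩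
    have h := Int.gcd_eq_gcd_ab A C
    rw [← ha] at h
    have ha' : (a : ℤ) ≠ 0 := by exact_mod_cast ha0.ne'
    apply mul_left_cancel₀ ha'
    linear_combination -h - (Int.gcdA A C) * hp - (Int.gcdB A C) * hr
  set B : ℤ := (d : ℤ) * γ 0 1 with hB
  set δ : ℤ := p * γ 1 1 - r * B with hδ
  have haδ : (a : ℤ) * δ = d := by
    rw [hδ, hB]
    linear_combination (d : ℤ) * hdet - γ 1 1 * hp + (d : ℤ) * γ 0 1 * hr
      + γ 1 1 * hA - (d : ℤ) * γ 0 1 * hC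
  have hδ0 : 0 < δ := by
    have h1 : (0 : ℤ) < d := by exact_mod_cast Nat.pos_of_ne_zero (NeZero.ne d)
    have h2 : (0 : ℤ) < a := by exact_mod_cast ha0
    nlinarith
  let γ' : SL(2, ℤ) := ⟨!![p, q; r, s], by rw [Matrix.det_fin_two_of]; linarith⟩
  refine ⟨a, δ.toNat, s * B - q * γ 1 1, γ', ha0, ?_, fun z => ?_⟩
  · have : ((a * δ.toNat : ℕ) : ℤ) = d := by rw [Nat.cast_mul, Int.toNat_of_nonneg hδ0.le, haδ]
    exact_mod_cast this
  set b : ℤ := s * B - q * γ 1 1 with hb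
  have hδC : ((δ.toNat : ℕ) : ℂ) = (δ : ℂ) := by
    rw [← Int.cast_natCast (R := ℂ), Int.toNat_of_nonneg hδ0.le]
  have him : 0 < (((a : ℂ) * z + b) / (δ.toNat : ℂ)).im := by
    rw [Complex.div_natCast_im]
    simp only [Complex.add_im, Complex.mul_im, Complex.natCast_re, Complex.natCast_im, zero_mul,
      add_zero, Complex.intCast_im]
    exact div_pos (mul_pos (by exact_mod_cast ha0) z.im_pos)
      (by exact_mod_cast (by omega : 0 < δ.toNat))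
  set w : ℍ := ⟨_, him⟩
  refine ⟨w, rfl, ?_⟩
  suffices h : scaleH d (γ • z) = γ' • w ∧ ((r : ℂ) * w + s) * δ = (γ 1 0 : ℂ) * z + γ 1 1 by
    refine ⟨h.1, ?_⟩
    rw [hδC, ModularGroup.denom_apply]
    simpa [γ'] using h.2
  have hden := smul_denom_ne γ z
  have hδne : (δ : ℂ) ≠ 0 := by exact_mod_cast hδ0.ne'
  have hw : (w : ℂ) * δ = (a : ℂ) * z + b := by
    show ((a : ℂ) * z + b) / (δ.toNat : ℂ) * δ = _
    rw [hδC, div_mul_cancel₀ _ hδne]
  have hden' : (r : ℂ) * w + s ≠ 0 := by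
    have := smul_denom_ne γ' w
    simpa [γ'] using this
  have hp' : (d : ℂ) * γ 0 0 = (a : ℂ) * p := by exact_mod_cast hA ▸ hp
  have hr' : ((γ 1 0 : ℤ) : ℂ) = (a : ℂ) * r := by exact_mod_cast hC ▸ hr
  have hsq' : (p : ℂ) * s - q * r = 1 := by exact_mod_cast hsq
  have hB' : (B : ℂ) = (d : ℂ) * γ 0 1 := by rw [hB]; push_cast; rfl
  have hb' : (b : ℂ) = (s : ℂ) * B - q * γ 1 1 := by rw [hb]; push_cast; rfl
  have hδ' : (δ : ℂ) = (p : ℂ) * γ 1 1 - r * B := by rw [hδ]; push_cast; rfl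
  -- both sides are `(X, Y) = γ' (a z + b, δ)`
  have e1 : ((r : ℂ) * w + s) * δ = (γ 1 0 : ℂ) * z + γ 1 1 := by
    linear_combination (r : ℂ) * hw + (r : ℂ) * hb' + (s : ℂ) * hδ' + (γ 1 1 : ℂ) * hsq' - z * hr'
  have e2 : ((p : ℂ) * w + q) * δ = (d : ℂ) * ((γ 0 0 : ℂ) * z + γ 0 1) := by
    linear_combination (p : ℂ) * hw + (p : ℂ) * hb' + (q : ℂ) * hδ' + (B : ℂ) * hsq' - z * hp'
      + hB'
  refine ⟨?_, e1⟩
  ext
  rw [coe_scaleH, coe_smul_int, coe_smul_int]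
  simp only [γ', Matrix.SpecialLinearGroup.coe_mk, Matrix.of_apply, Matrix.cons_val',
    Matrix.cons_val_zero, Matrix.cons_val_one, Matrix.empty_val', Matrix.cons_val_fin_one]
  rw [← mul_div_assoc, div_eq_div_iff hden hden']
  apply mul_right_cancel₀ hδne
  linear_combination (d : ℂ) * ((γ 0 0 : ℂ) * z + γ 0 1) * e1
    - ((γ 1 0 : ℂ) * z + γ 1 1) * e2

end FA.ModField.EtaQ
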