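import Fermat.Agent.ModField.Semistable.Mono.Eta.Multiplier
import Fermat.Agent.ModField.Semistable.Mono.Eta.Upper
import Fermat.Agent.CurveRed.Haupt.Function
import Fermat.Agent.Level.Gamma0

/-!
# `η(az)^(2w) / η(bz)^(2w)` as a modular function
-/

set_option autoImplicit false
set_option linter.style.haveILetI false
set_option linter.unusedSectionVars false
set_option maxHeartbeats 800000

noncomputable section

namespace FA.ModField.EtaQ

open UpperHalfPlane hiding I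
open Complex HahnSeries CongruenceSubgroup ModularCurve FA.CurveRed.Haupt
open scoped MatrixGroups Manifold

theorem etaPow_eq (w : ℕ) (z : ℍ) : etaPow w z =
    cexp (2 * Real.pi * I * z * (2 * w) / 24) * (∏' n : ℕ, (1 - qp 1 z ^ (n + 1))) ^ (2 * w) := by
  have hq : qp 1 z = Function.Periodic.qParam (1 : ℝ) (z : ℂ) := by simp [qp]
  rw [etaPow, ModularForm.eta, mul_pow]
  congr 1
  · rw [Function.Periodic.qParam, ← Complex.exp_nat_mul]
    congr 1
    push_cast
    ring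
  · simp only [ModularForm.eta_q, ← hq]

theorem mdiff_etaPow (w : ℕ) : MDiff (etaPow w) := by
  rw [UpperHalfPlane.mdifferentiable_iff]
  intro x hx
  have h1 : DifferentiableWithinAt ℂ (fun x => ModularForm.eta x ^ (2 * w)) {z : ℂ | 0 < z.im} x :=
    ((ModularForm.differentiableAt_eta_of_mem_upperHalfPlaneSet hx).pow _).differentiableWithinAt
  exact h1.congr (fun y hy => by rw [Function.comp_apply, etaPow, ofComplex_apply_of_im_pos hy])
    (by rw [Function.comp_apply, etaPow, ofComplex_apply_of_im_pos hx])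

theorem etaPow_mul_compl {w : ℕ} (hw : w ≤ 12) (z : ℍ) :
    etaPow w z * etaPow (12 - w) z = ModularForm.discriminant z := by
  rw [← etaPow_twelve, etaPow, etaPow, etaPow, ← _root_.pow_add]
  congr 1
  omega

variable (w : ℕ) (a b : ℕ) [NeZero a] [NeZero b]

/-- `η(az)^(2w) / η(bz)^(2w)`, written with non-negative exponents. -/
def etaQuot (z : ℍ) : ℂ :=
  etaPow w (scaleH a z) * (etaPow (12 - w) (scaleH b z) *
    (ModularForm.discriminant (scaleH b z))⁻¹)

theorem etaQuot_eq (hw : w ≤ 12) (z : ℍ) :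
    etaQuot w a b z = etaPow w (scaleH a z) / etaPow w (scaleH b z) := by
  rw [etaQuot, ← etaPow_mul_compl hw (scaleH b z)]
  have h1 := etaPow_ne_zero w (scaleH b z)
  have h2 := etaPow_ne_zero (12 - w) (scaleH b z)
  field_simp

theorem etaQuot_ne_zero (hw : w ≤ 12) (z : ℍ) : etaQuot w a b z ≠ 0 := by
  rw [etaQuot_eq w a b hw]
  exact div_ne_zero (etaPow_ne_zero _ _) (etaPow_ne_zero _ _)

theorem etaQuot_mul_swap (hw : w ≤ 12) (z : ℍ) : etaQuot w a b z * etaQuot w b a z = 1 := by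
  rw [etaQuot_eq w a b hw, etaQuot_eq w b a hw, div_mul_div_comm, mul_comm (etaPow w (scaleH b z))]
  exact div_self (mul_ne_zero (etaPow_ne_zero _ _) (etaPow_ne_zero _ _))

theorem mdiff_etaQuot : MDiff (etaQuot w a b) :=
  (mdiff_comp_scale (mdiff_etaPow w) a).mul
    ((mdiff_comp_scale (mdiff_etaPow (12 - w)) b).mul (mdiff_comp_scale mdiff_inv_discriminant b))

/-! ### The series -/

/-- The regular factor of the series. -/
def etaTail : PowerSeries ℤ :=
  PowerSeries.expand a (NeZero.ne a) (etaProd ^ (2 * w)) *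
    PowerSeries.expand b (NeZero.ne b) (etaProd ^ (2 * (12 - w)) * dedekindEtaUnitInv)

/-- The series, `m` times its order being `a - b`. -/
def etaSer (m : ℕ) (R : Type*) [CommRing R] : LaurentSeries R :=
  single (((a : ℤ) - b) / m) 1 * ofPowerSeries ℤ R ((etaTail w a b).map (Int.castRingHom R))

theorem coeffMap_etaSer (m : ℕ) {R S : Type*} [CommRing R] [CommRing S] (φ : R →+* S) :
    coeffMap φ (etaSer w a b m R) = etaSer w a b m S := by
  rw [etaSer, etaSer, map_mul, coeffMap_single, map_one, coeffMap_ofPowerSeries,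
    ← RingHom.comp_apply (PowerSeries.map φ) (PowerSeries.map (Int.castRingHom R)),
    ← PowerSeries.map_comp, RingHom.ext_int (φ.comp (Int.castRingHom R)) (Int.castRingHom S)]

theorem constantCoeff_etaTail : PowerSeries.constantCoeff (etaTail w a b) = 1 := by
  rw [etaTail, map_mul, PowerSeries.constantCoeff_expand, PowerSeries.constantCoeff_expand,
    map_mul, map_pow, map_pow, constantCoeff_etaProd, one_pow, one_pow,
    constantCoeff_dedekindEtaUnitInv]
  norm_num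

theorem etaSer_coeff_lead (m : ℕ) (R : Type*) [CommRing R] :
    (etaSer w a b m R).coeff (((a : ℤ) - b) / m) = 1 := by
  rw [etaSer, coeff_single_mul, one_mul, sub_self, show (0 : ℤ) = ((0 : ℕ) : ℤ) from rfl,
    ofPowerSeries_apply_coeff, PowerSeries.coeff_map, PowerSeries.coeff_zero_eq_constantCoeff,
    constantCoeff_etaTail, map_one]

theorem etaSer_ne_zero (m : ℕ) (R : Type*) [CommRing R] [Nontrivial R] :
    etaSer w a b m R ≠ 0 := fun h => by
  have := etaSer_coeff_lead w a b m R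
  rw [h] at this
  exact zero_ne_one this

theorem hasExp_etaQuot {m : ℕ} (hwm : w * m = 12) (hab : (m : ℤ) ∣ (a : ℤ) - b) :
    HasExp (qp 1) (etaQuot w a b) (etaSer w a b m ℂ) := by
  obtain ⟨n₀, hn₀⟩ := hab
  have hm : m ≠ 0 := by rintro rfl; simp at hwm
  have hw : w ≤ 12 := by
    rw [← hwm]
    exact Nat.le_mul_of_pos_right w (Nat.pos_of_ne_zero hm)
  have e0 : ((a : ℤ) - b) / m = n₀ := by
    rw [hn₀, Int.mul_ediv_cancel_left _ (by exact_mod_cast hm)]
  have hA := (hasExp_etaProd.pow (qp_ne_zero 1) (2 * w)).comp (U := qp 1) (scaleH a) a 1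
    (fun z => by rw [qp_scale, Units.val_one, one_mul])
  have hB := ((hasExp_etaProd.pow (qp_ne_zero 1) (2 * (12 - w))).mul (qp_ne_zero 1)
    hasExp_inv_etaUnit).comp (U := qp 1) (scaleH b) b 1
    (fun z => by rw [qp_scale, Units.val_one, one_mul])
  rw [twist_one_apply] at hA hB
  have h := (hasExp_single (T := qp 1) n₀ 1).mul (qp_ne_zero 1) (hA.mul (qp_ne_zero 1) hB)
  have e : single n₀ (1 : ℂ) * (qExpand ℂ a
      (ofPowerSeries ℤ ℂ (etaProd.map (Int.castRingHom ℂ)) ^ (2 * w)) *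
        qExpand ℂ b (ofPowerSeries ℤ ℂ (etaProd.map (Int.castRingHom ℂ)) ^ (2 * (12 - w)) *
          ofPowerSeries ℤ ℂ (dedekindEtaUnitInv.map (Int.castRingHom ℂ)))) =
      etaSer w a b m ℂ := by
    rw [etaSer, e0, etaTail, map_mul (PowerSeries.map _), PowerSeries.map_expand,
      PowerSeries.map_expand, map_mul (ofPowerSeries ℤ ℂ), ← qExpand_ofPowerSeries,
      ← qExpand_ofPowerSeries, map_mul (PowerSeries.map _), map_pow (PowerSeries.map _),
      map_pow (PowerSeries.map _), map_mul (ofPowerSeries ℤ ℂ), map_pow (ofPowerSeries ℤ ℂ),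
      map_pow (ofPowerSeries ℤ ℂ)]
  rw [e] at h
  refine h.congr (funext fun z => ?_)
  simp only [Pi.mul_apply, Pi.pow_apply, Function.comp_apply, one_mul]
  rw [etaQuot_eq w a b hw, etaPow_eq, etaPow_eq]
  set P := ∏' n : ℕ, (1 - qp 1 (scaleH b z) ^ (n + 1)) with hP
  have hP0 : P ≠ 0 := fun h0 => by
    have := etaPow_ne_zero 1 (scaleH b z)
    rw [etaPow_eq, ← hP, h0] at this
    simp at this
  have hexp : cexp (2 * Real.pi * I * (scaleH a z : ℍ) * (2 * w) / 24) =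
      qp 1 z ^ n₀ * cexp (2 * Real.pi * I * (scaleH b z : ℍ) * (2 * w) / 24) := by
    rw [qp_eq, ← Complex.exp_int_mul, ← Complex.exp_add, coe_scaleH, coe_scaleH]
    congr 1
    have h1 : (w : ℂ) * m = 12 := by exact_mod_cast hwm
    have h2 : (a : ℂ) - b = m * n₀ := by exact_mod_cast hn₀
    push_cast
    linear_combination (2 * Real.pi * I * z * (2 * (w : ℂ)) / 24) * h2 +
      (2 * Real.pi * I * z * (n₀ : ℂ) / 12) * h1
  rw [hexp, inv_pow]
  have hB0 : cexp (2 * Real.pi * I * (scaleH b z : ℍ) * (2 * w) / 24) ≠ 0 := exp_ne_zero _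
  have e24 : P ^ (2 * (12 - w)) * (P ^ 24)⁻¹ = (P ^ (2 * w))⁻¹ := by
    have h24 : P ^ 24 = P ^ (2 * w) * P ^ (2 * (12 - w)) := by
      rw [← _root_.pow_add]; congr 1; omega
    rw [h24]
    field_simp
  rw [e24]
  field_simp

/-! ### Invariance -/

variable {w a b} {m : ℕ} [NeZero m] {N : ℕ} [NeZero N]

theorem etaQuot_smul (hwm : w * m = 12) (hw : w = 12 ∨ w = 4 ∨ w = 3) (ha : a ∣ N) (hb : b ∣ N)
    (hab : (m : ℤ) ∣ (a : ℤ) - b) (hcop : Nat.Coprime a m) {g : SL(2, ℤ)} (hg : g ∈ Gamma0 N)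
    (z : ℍ) : etaQuot w a b (g • z) = etaQuot w a b z := by
  obtain ⟨χ, hχ1, hχ⟩ := exists_mult w m hwm hw
  have hw12 : w ≤ 12 := by omega
  rw [Gamma0_mem, ZMod.intCast_zmod_eq_zero_iff_dvd] at hg
  have hdet : g 0 0 * g 1 1 - g 0 1 * g 1 0 = 1 := by
    have := g.det_coe; rwa [Matrix.det_fin_two] at this
  have key : ∀ (d : ℕ) [NeZero d], d ∣ N → ∃ g' : SL(2, ℤ), ∃ c : ℤ,
      g 1 0 = d * c ∧ (g' : Matrix (Fin 2) (Fin 2) ℤ) = !![g 0 0, (d : ℤ) * g 0 1; c, g 1 1] ∧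
      scaleH d (g • z) = g' • scaleH d z ∧ denom g' (scaleH d z) = denom g z := by
    intro d _ hd
    obtain ⟨c, hc⟩ := (Int.natCast_dvd_natCast.2 hd).trans hg
    obtain ⟨g', hg'⟩ : ∃ g' : SL(2, ℤ),
        (g' : Matrix (Fin 2) (Fin 2) ℤ) = !![g 0 0, (d : ℤ) * g 0 1; c, g 1 1] :=
      ⟨⟨_, by rw [Matrix.det_fin_two_of]; linear_combination hdet + g 0 1 * hc⟩, rfl⟩
    have hc' : ((g 1 0 : ℤ) : ℂ) = (d : ℂ) * c := by exact_mod_cast hc
    refine ⟨g', c, hc, hg', ?_, ?_⟩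
    · ext
      rw [coe_scaleH, coe_smul_int, coe_smul_int, hg']
      simp only [Matrix.of_apply, Matrix.cons_val', Matrix.cons_val_zero, Matrix.cons_val_one,
        Matrix.empty_val', Matrix.cons_val_fin_one, coe_scaleH, Int.cast_mul, Int.cast_natCast, hc']
      rw [← mul_div_assoc]
      congr 1 <;> ring
    · rw [denom_SL, denom_SL, hg']
      simp only [Matrix.of_apply, Matrix.cons_val', Matrix.cons_val_zero, Matrix.cons_val_one,
        Matrix.empty_val', Matrix.cons_val_fin_one, coe_scaleH, hc']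
      ring
  obtain ⟨ga, ca, hca, hga, ea, da⟩ := key a ha
  obtain ⟨gb, cb, hcb, hgb, eb, db⟩ := key b hb
  have habm : (a : ZMod m) = (b : ZMod m) := by
    rw [← Int.cast_natCast a, ← Int.cast_natCast b, ← sub_eq_zero, ← Int.cast_sub,
      ZMod.intCast_zmod_eq_zero_iff_dvd]
    exact hab
  have hc : (ca : ZMod m) = (cb : ZMod m) := by
    have h1 := congrArg (Int.cast : ℤ → ZMod m) (hca.symm.trans hcb)
    push_cast at h1
    rw [← habm] at h1
    exact ((ZMod.unitOfCoprime a hcop).isUnit).mul_left_cancel h1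
  have hred : redMod m ga = redMod m gb := redMod_eq fun i j => by
    fin_cases i <;> fin_cases j <;> simp [hga, hgb, hc, habm]
  rw [etaQuot_eq w a b hw12, etaQuot_eq w a b hw12, ea, eb, hχ, hχ, hred, da, db]
  have hd : denom g z ≠ 0 := by rw [denom_SL]; exact smul_denom_ne g z
  have hχ0 : χ (redMod m gb) ≠ 0 := fun h0 => by
    have := hχ1 (redMod m gb)
    rw [h0, zero_pow (NeZero.ne m)] at this
    exact zero_ne_one this
  rw [mul_div_mul_left _ _ (mul_ne_zero hχ0 (pow_ne_zero _ hd))]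

theorem exists_exp_smul (hwm : w * m = 12) (hw : w = 12 ∨ w = 4 ∨ w = 3) (ha : a ∣ N) (hb : b ∣ N)
    (hab : (m : ℤ) ∣ (a : ℤ) - b) (hcop : Nat.Coprime a m) (γ : SL(2, ℤ)) :
    ∃ L, HasExp (qp N) (fun z => etaQuot w a b (γ • z)) L := by
  obtain ⟨χ, hχ1, hχ⟩ := exists_mult w m hwm hw
  have hw12 : w ≤ 12 := by omega
  have key : ∀ (d : ℕ) [NeZero d], d ∣ N → ∃ (K : ℂ) (n : ℕ) (c : ℂˣ) (u : ℍ → ℍ) (_ : NeZero n),
      K ≠ 0 ∧ (∀ z, qp 1 (u z) = (c : ℂ) * qp N z ^ n) ∧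
      ∀ z, etaPow w (scaleH d (γ • z)) = K * (((γ 1 0 : ℤ) : ℂ) * z + ((γ 1 1 : ℤ) : ℂ)) ^ w *
        (cexp (2 * Real.pi * I * ((n : ℂ) * z) / (N * m)) *
          (∏' i : ℕ, (1 - qp 1 (u z) ^ (i + 1))) ^ (2 * w)) := by
    intro d _ hd
    obtain ⟨α, δ, β, g, hα, hαδ, hw'⟩ := exists_upper_smul d γ
    obtain ⟨e, he⟩ := hd
    have hd0 : d ≠ 0 := NeZero.ne d
    have he0 : e ≠ 0 := fun h => NeZero.ne N (by rw [he, h, mul_zero])
    have hδ0 : δ ≠ 0 := fun h => hd0 (by rw [← hαδ, h, mul_zero])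
    choose u hu hug hden using hw'
    have hχ0 : χ (redMod m g) ≠ 0 := fun h0 => by
      have := hχ1 (redMod m g)
      rw [h0, zero_pow (NeZero.ne m)] at this
      exact zero_ne_one this
    have hδC : (δ : ℂ) ≠ 0 := Nat.cast_ne_zero.2 hδ0
    have hαC : (α : ℂ) ≠ 0 := Nat.cast_ne_zero.2 hα.ne'
    have heC : (e : ℂ) ≠ 0 := Nat.cast_ne_zero.2 he0
    have hN : (N : ℂ) = (α : ℂ) * δ * e := by exact_mod_cast he.trans (by rw [hαδ])
    refine ⟨χ (redMod m g) * ((δ : ℂ) ^ w)⁻¹ * cexp (2 * Real.pi * I * (β / δ) / m),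
      α * α * e, zetaN N ^ (β * (α * e : ℕ)), u,
      ⟨Nat.mul_ne_zero (Nat.mul_ne_zero hα.ne' hα.ne') he0⟩,
      mul_ne_zero (mul_ne_zero hχ0 (inv_ne_zero (pow_ne_zero _ hδC))) (exp_ne_zero _),
      fun z => ?_, fun z => ?_⟩
    · rw [qp_eq, qp_eq, Units.val_zpow_eq_zpow_val, zetaN, Units.val_mk0, ← Complex.exp_int_mul,
        ← Complex.exp_nat_mul, ← Complex.exp_add, hu, hN]
      congr 1
      push_cast
      field_simp
      ring
    · rw [hug, hχ, etaPow_eq, show denom g (u z) = (((γ 1 0 : ℤ) : ℂ) * z +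
        ((γ 1 1 : ℤ) : ℂ)) / δ from eq_div_of_mul_eq hδC (hden z), div_pow, hu]
      have h1 : (w : ℂ) * m = 12 := by exact_mod_cast hwm
      have hmC : (m : ℂ) ≠ 0 := Nat.cast_ne_zero.2 (NeZero.ne m)
      have hexp : cexp (2 * Real.pi * I * (((α : ℂ) * z + β) / δ) * (2 * w) / 24) =
          cexp (2 * Real.pi * I * (β / δ) / m) *
            cexp (2 * Real.pi * I * (((α * α * e : ℕ) : ℂ) * z) / (N * m)) := by
        rw [← Complex.exp_add, hN]
        congr 1
        push_cast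
        field_simp
        linear_combination (((α : ℂ) * z + β) * 2) * h1
      rw [hexp]
      field_simp
  obtain ⟨Ka, na, ca, ua, hna, hKa, hua, ea⟩ := key a ha
  obtain ⟨Kb, nb, cb, ub, hnb, hKb, hub, eb⟩ := key b hb
  set Hf : ℍ → ℂ := fun z => (∏' i : ℕ, (1 - qp 1 (ua z) ^ (i + 1))) ^ (2 * w) *
    ((∏' i : ℕ, (1 - qp 1 (ub z) ^ (i + 1))) ^ (2 * (12 - w)) *
      (∏' i : ℕ, (1 - qp 1 (ub z) ^ (i + 1)))⁻¹ ^ 24) with hHf
  have hA := (hasExp_etaProd.pow (qp_ne_zero 1) (2 * w)).comp (U := qp N) ua na ca hua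
  have hB := ((hasExp_etaProd.pow (qp_ne_zero 1) (2 * (12 - w))).mul (qp_ne_zero 1)
    hasExp_inv_etaUnit).comp (U := qp N) ub nb cb hub
  have hH := hA.mul (qp_ne_zero N) hB
  have hP : ∀ z, (∏' i : ℕ, (1 - qp 1 z ^ (i + 1))) ≠ 0 := fun z h0 => by
    have := etaPow_ne_zero 1 z
    rw [etaPow_eq, h0] at this
    simp at this
  have hH2 : ∀ z, Hf z = (∏' i : ℕ, (1 - qp 1 (ua z) ^ (i + 1))) ^ (2 * w) *
      ((∏' i : ℕ, (1 - qp 1 (ub z) ^ (i + 1))) ^ (2 * w))⁻¹ := by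
    intro z
    show _ * (_ * _) = _
    congr 1
    have h : ∀ P : ℂ, P ≠ 0 → P ^ (2 * (12 - w)) * P⁻¹ ^ 24 = (P ^ (2 * w))⁻¹ := by
      intro P hP0
      have h : P ^ 24 = P ^ (2 * w) * P ^ (2 * (12 - w)) := by
        rw [← _root_.pow_add]; congr 1; omega
      rw [inv_pow, h]
      field_simp
    exact h _ (hP _)
  have hfun : ∀ z, etaQuot w a b (γ • z) = Ka / Kb *
      cexp (2 * Real.pi * I * (((na : ℂ) - nb) * z) / (N * m)) * Hf z := by
    intro z
    have hd := smul_denom_ne γ z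
    rw [etaQuot_eq w a b hw12, ea, eb, sub_mul, mul_sub, sub_div, Complex.exp_sub, hH2]
    have hb0 := exp_ne_zero (2 * Real.pi * I * ((nb : ℂ) * z) / (N * m))
    have hP0 := pow_ne_zero (2 * w) (hP (ub z))
    field_simp
  have hdvd : (m : ℤ) ∣ (na : ℤ) - nb := by
    set z₀ : ℍ := UpperHalfPlane.I
    set T' : SL(2, ℤ) := ModularGroup.T ^ (N : ℤ)
    have hmem : γ * T' * γ⁻¹ ∈ Gamma0 N := (FA.Level.lvlGamma0 N).conj_T_pow_mem γ
    have hper : etaQuot w a b (γ • (T' • z₀)) = etaQuot w a b (γ • z₀) := by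
      conv_rhs => rw [← etaQuot_smul hwm hw ha hb hab hcop hmem]
      rw [smul_smul, smul_smul, inv_mul_cancel_right]
    have hT : ((T' • z₀ : ℍ) : ℂ) = (z₀ : ℂ) + N := by
      simp only [T', zpow_natCast]
      exact coe_T_pow_smul N z₀
    have hq : qp N (T' • z₀) = qp N z₀ := by
      rw [qp_eq, qp_eq, hT, mul_add, add_div, Complex.exp_add,
        mul_div_cancel_right₀ _ (Nat.cast_ne_zero.2 (NeZero.ne N)), Complex.exp_two_pi_mul_I,
        mul_one]
    have hH' : Hf (T' • z₀) = Hf z₀ := by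
      refine (hH (T' • z₀)).unique ?_
      rw [hq]
      exact hH z₀
    have hne : Hf z₀ ≠ 0 := mul_ne_zero (pow_ne_zero _ (hP _))
      (mul_ne_zero (pow_ne_zero _ (hP _)) (pow_ne_zero _ (inv_ne_zero (hP _))))
    rw [hfun, hfun, hH', hT] at hper
    have h := mul_left_cancel₀ (div_ne_zero hKa hKb) (mul_right_cancel₀ hne hper)
    rw [Complex.exp_eq_exp_iff_exists_int] at h
    obtain ⟨k, hk⟩ := h
    refine ⟨k, ?_⟩
    have hmC : (m : ℂ) ≠ 0 := Nat.cast_ne_zero.2 (NeZero.ne m)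
    have hNC : (N : ℂ) ≠ 0 := Nat.cast_ne_zero.2 (NeZero.ne N)
    field_simp at hk
    have h2 : (2 * Real.pi * I * N) ≠ 0 := mul_ne_zero Complex.two_pi_I_ne_zero hNC
    have h3 : ((na : ℂ) - nb) = (m : ℂ) * k := by
      refine mul_left_cancel₀ h2 ?_
      linear_combination (2 * Real.pi * I) * hk
    exact_mod_cast h3
  obtain ⟨k, hk⟩ := hdvd
  refine ⟨_, (((hasExp_single (T := qp N) k (Ka / Kb)).mul (qp_ne_zero N) hH)).congr
    (funext fun z => ?_)⟩
  rw [hfun, hHf]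
  simp only [Pi.mul_apply, Pi.pow_apply, Function.comp_apply]
  congr 1
  rw [qp_eq, ← Complex.exp_int_mul]
  congr 2
  have hmC : (m : ℂ) ≠ 0 := Nat.cast_ne_zero.2 (NeZero.ne m)
  have hkC : ((na : ℂ) - nb) = m * k := by exact_mod_cast hk
  rw [hkC]
  field_simp

theorem etaQuot_mem (hwm : w * m = 12) (hw : w = 12 ∨ w = 4 ∨ w = 3) (ha : a ∣ N) (hb : b ∣ N)
    (hab : (m : ℤ) ∣ (a : ℤ) - b) (hcop : Nat.Coprime a m) : etaQuot w a b ∈ modFuns N :=
  ⟨mdiff_etaQuot w a b, fun _ hg => etaQuot_smul hwm hw ha hb hab hcop hg,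
    ⟨_, hasExp_etaQuot w a b hwm hab⟩, exists_exp_smul hwm hw ha hb hab hcop⟩

end FA.ModField.EtaQ
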