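import Fermat.Agent.ModField.ModFuns
import Fermat.Agent.ModField.JFunction
import Fermat.Agent.ModField.Elliptic
import Mathlib.NumberTheory.ModularForms.Discriminant

/-!
# The multiplier of `η^(2w)` for `w ∈ {12, 4, 3}`

It depends on a matrix modulo `m = 12 / w` only.
-/

set_option autoImplicit false
set_option linter.style.haveILetI false
set_option linter.unusedSectionVars false

noncomputable section

namespace FA.ModField.EtaQ

open UpperHalfPlane hiding I
open Complex ModularGroup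
open scoped MatrixGroups

/-- `η^(2w)`. -/
def etaPow (w : ℕ) (z : ℍ) : ℂ := ModularForm.eta (z : ℂ) ^ (2 * w)

theorem etaPow_ne_zero (w : ℕ) (z : ℍ) : etaPow w z ≠ 0 :=
  pow_ne_zero _ (ModularForm.eta_ne_zero z.im_pos)

theorem etaPow_twelve (z : ℍ) : etaPow 12 z = ModularForm.discriminant z := rfl

/-- `exp(2πi / m)`. -/
def rootC (m : ℕ) : ℂ := cexp (2 * Real.pi * I / m)

theorem rootC_ne_zero (m : ℕ) : rootC m ≠ 0 := exp_ne_zero _

theorem rootC_pow (m : ℕ) [NeZero m] : rootC m ^ m = 1 := by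
  rw [rootC, ← Complex.exp_nat_mul,
    mul_div_cancel₀ _ (Nat.cast_ne_zero.2 (NeZero.ne m)), Complex.exp_two_pi_mul_I]

theorem rootC_pow_add (m : ℕ) [NeZero m] (x y : ZMod m) :
    rootC m ^ (x + y).val = rootC m ^ x.val * rootC m ^ y.val := by
  rw [← pow_add]
  conv_rhs => rw [← Nat.mod_add_div (x.val + y.val) m, pow_add, pow_mul, rootC_pow, one_pow,
    mul_one, ← ZMod.val_add]

theorem eta_add_one (z : ℂ) :
    ModularForm.eta (z + 1) = cexp (2 * Real.pi * I / 24) * ModularForm.eta z := by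
  rw [ModularForm.eta, ModularForm.eta, ← mul_assoc]
  congr 1
  · rw [Function.Periodic.qParam, Function.Periodic.qParam, ← Complex.exp_add]
    congr 1
    push_cast
    ring
  · refine tprod_congr fun n => ?_
    rw [ModularForm.eta_q_eq_pow, ModularForm.eta_q_eq_pow,
      show 2 * (Real.pi : ℂ) * I * (z + 1) = 2 * Real.pi * I * z + 2 * Real.pi * I by ring,
      Complex.exp_add, Complex.exp_two_pi_mul_I, mul_one]

theorem etaPow_T (w m : ℕ) (hwm : w * m = 12) (z : ℍ) :
    etaPow w (ModularGroup.T • z) = rootC m * etaPow w z := by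
  have hm : (m : ℂ) ≠ 0 := Nat.cast_ne_zero.2 (by rintro rfl; simp at hwm)
  have h : (w : ℂ) * m = 12 := by exact_mod_cast hwm
  rw [etaPow, etaPow, modular_T_smul, coe_vadd, add_comm, Complex.ofReal_one, eta_add_one,
    mul_pow, rootC, ← Complex.exp_nat_mul]
  congr 2
  push_cast
  field_simp
  linear_combination 2 * h

theorem etaPow_S (w : ℕ) (z : ℍ) :
    etaPow w (ModularGroup.S • z) = (I⁻¹) ^ w * (z : ℂ) ^ w * etaPow w z := by
  have hsq : ∀ x : ℂ, Complex.sqrt x ^ 2 = x := fun x => Complex.cpow_nat_inv_pow x two_ne_zero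
  have h := ModularForm.eta_comp_eq_csqrt_I_inv (x := (z : ℂ)) z.im_pos
  have e : ((ModularGroup.S • z : ℍ) : ℂ) = -1 / (z : ℂ) := by
    rw [UpperHalfPlane.modular_S_smul]
    show (-(z : ℂ))⁻¹ = -1 / (z : ℂ)
    field_simp
  simp only [Function.comp_apply, Pi.smul_apply, Pi.mul_apply, smul_eq_mul] at h
  rw [etaPow, etaPow, e, h, mul_pow, mul_pow, pow_mul ((Complex.sqrt I)⁻¹),
    pow_mul (Complex.sqrt (z : ℂ)), inv_pow, hsq, hsq]
  ring

theorem denom_SL (g : SL(2, ℤ)) (z : ℍ) :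
    denom g z = ((g 1 0 : ℤ) : ℂ) * z + ((g 1 1 : ℤ) : ℂ) :=
  ModularGroup.denom_apply g z

theorem denom_mul_SL (g h : SL(2, ℤ)) (z : ℍ) :
    denom ((g * h : SL(2, ℤ)) : GL (Fin 2) ℝ) z = denom g (h • z : ℍ) * denom h z := by
  have hd := smul_denom_ne h z
  rw [denom_SL, denom_SL, denom_SL, coe_smul_int]
  simp only [Matrix.SpecialLinearGroup.coe_mul, Matrix.mul_apply, Fin.sum_univ_two]
  push_cast
  field_simp
  ring

/-- Reduction modulo `m`. -/
def redMod (m : ℕ) (g : SL(2, ℤ)) : SL(2, ZMod m) :=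
  Matrix.SpecialLinearGroup.map (Int.castRingHom (ZMod m)) g

theorem redMod_mul (m : ℕ) (g h : SL(2, ℤ)) : redMod m (g * h) = redMod m g * redMod m h :=
  map_mul _ g h

theorem redMod_eq {m : ℕ} {g g' : SL(2, ℤ)} (h : ∀ i j, ((g i j : ℤ) : ZMod m) = (g' i j : ℤ)) :
    redMod m g = redMod m g' :=
  Matrix.SpecialLinearGroup.ext _ _ h

variable (w m : ℕ) [NeZero m]

/-- The statement to be proved along generators. -/
def Good (h : SL(2, ZMod m) → ZMod m) (g : SL(2, ℤ)) : Prop :=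
  (∀ x, h (x * redMod m g) = h x + h (redMod m g)) ∧
    ∀ z : ℍ, etaPow w (g • z) = rootC m ^ (h (redMod m g)).val * denom g z ^ w * etaPow w z

theorem good_one {h : SL(2, ZMod m) → ZMod m} (h1 : h 1 = 0) : Good w m h 1 := by
  refine ⟨fun x => ?_, fun z => ?_⟩
  · rw [redMod, map_one, mul_one, h1, add_zero]
  · rw [redMod, map_one, h1, denom_SL]
    simp

theorem good_mul {h : SL(2, ZMod m) → ZMod m} {g g' : SL(2, ℤ)} (hg : Good w m h g)
    (hg' : Good w m h g') : Good w m h (g * g') := by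
  obtain ⟨a, b⟩ := hg
  obtain ⟨a', b'⟩ := hg'
  refine ⟨fun x => ?_, fun z => ?_⟩
  · rw [redMod_mul, ← mul_assoc, a', a, a', add_assoc]
  · rw [mul_smul, b, b', redMod_mul, a', rootC_pow_add, denom_mul_SL]
    ring

theorem good_inv {h : SL(2, ZMod m) → ZMod m} (h1 : h 1 = 0) {g : SL(2, ℤ)} (hg : Good w m h g) :
    Good w m h g⁻¹ := by
  obtain ⟨a, b⟩ := hg
  have e : redMod m g⁻¹ * redMod m g = 1 := by
    rw [← redMod_mul, inv_mul_cancel]
    exact map_one _
  have hinv : h (redMod m g⁻¹) + h (redMod m g) = 0 := by rw [← a, e, h1]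
  refine ⟨fun x => ?_, fun z => ?_⟩
  · have := a (x * redMod m g⁻¹)
    rw [mul_assoc, e, mul_one] at this
    linear_combination -this - hinv
  · have h2 := b (g⁻¹ • z)
    rw [smul_inv_smul] at h2
    have hd := denom_mul_SL g g⁻¹ z
    rw [mul_inv_cancel, denom_SL] at hd
    simp only [Matrix.SpecialLinearGroup.coe_one, Matrix.one_apply_ne (show (1 : Fin 2) ≠ 0 by decide),
      Matrix.one_apply_eq, Int.cast_zero, zero_mul, zero_add, Int.cast_one] at hd
    have hr := rootC_pow_add m (h (redMod m g⁻¹)) (h (redMod m g))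
    rw [hinv, ZMod.val_zero, pow_zero] at hr
    rw [h2]
    calc etaPow w (g⁻¹ • z)
        = (rootC m ^ (h (redMod m g⁻¹)).val * rootC m ^ (h (redMod m g)).val) *
            (denom g (g⁻¹ • z : ℍ) * denom (g⁻¹ : SL(2, ℤ)) z) ^ w * etaPow w (g⁻¹ • z) := by
          rw [← hr, ← hd, one_pow, one_mul, one_mul]
      _ = _ := by ring

theorem good_all {h : SL(2, ZMod m) → ZMod m} (h1 : h 1 = 0) (hS : Good w m h ModularGroup.S)
    (hT : Good w m h ModularGroup.T) (g : SL(2, ℤ)) : Good w m h g := by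
  have hg : g ∈ Subgroup.closure {ModularGroup.S, ModularGroup.T} := by
    rw [SpecialLinearGroup.SL2Z_generators]
    trivial
  induction hg using Subgroup.closure_induction with
  | mem x hx => rcases hx with rfl | rfl; exacts [hS, hT]
  | one => exact good_one w m h1
  | mul x y _ _ hx hy => exact good_mul w m hx hy
  | inv x _ hx => exact good_inv w m h1 hx

theorem exists_mult_of_formula (hwm : w * m = 12) (F : ZMod m → ZMod m → ZMod m → ZMod m → ZMod m)
    (h1 : F 1 0 0 1 = 0)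
    (hTF : ∀ a b c d : ZMod m, a * d - b * c = 1 → F a (a + b) c (c + d) = F a b c d + F 1 1 0 1)
    (hSF : ∀ a b c d : ZMod m, a * d - b * c = 1 → F b (-a) d (-c) = F a b c d + F 0 (-1) 1 0)
    (hT1 : F 1 1 0 1 = 1) (hS1 : rootC m ^ (F 0 (-1) 1 0).val = I⁻¹ ^ w) :
    ∃ χ : SL(2, ZMod m) → ℂ, (∀ x, χ x ^ m = 1) ∧
      ∀ (g : SL(2, ℤ)) (z : ℍ), etaPow w (g • z) = χ (redMod m g) * denom g z ^ w * etaPow w z := by
  let h : SL(2, ZMod m) → ZMod m := fun x => F (x 0 0) (x 0 1) (x 1 0) (x 1 1)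
  have hdet : ∀ x : SL(2, ZMod m), x 0 0 * x 1 1 - x 0 1 * x 1 0 = 1 := fun x => by
    have := x.det_coe
    rwa [Matrix.det_fin_two] at this
  have eT : h (redMod m ModularGroup.T) = F 1 1 0 1 := by
    simp [h, redMod, ModularGroup.T]
  have eS : h (redMod m ModularGroup.S) = F 0 (-1) 1 0 := by
    simp [h, redMod, ModularGroup.S]
  have hh1 : h 1 = 0 := by simpa [h] using h1
  have hT : Good w m h ModularGroup.T := by
    refine ⟨fun x => ?_, fun z => ?_⟩
    · rw [eT, ← hTF _ _ _ _ (hdet x)]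
      simp [h, redMod, ModularGroup.T, Matrix.mul_apply, Fin.sum_univ_two]
    · rw [etaPow_T w m hwm, eT, hT1, denom_SL]
      rcases eq_or_ne m 1 with rfl | hm
      · simp [ModularGroup.T, rootC, Complex.exp_two_pi_mul_I, Subsingleton.elim (1 : ZMod 1) 0]
      · haveI : Fact (1 < m) := ⟨by have := NeZero.ne m; omega⟩
        simp [ModularGroup.T, ZMod.val_one]
  have hS : Good w m h ModularGroup.S := by
    refine ⟨fun x => ?_, fun z => ?_⟩
    · rw [eS, ← hSF _ _ _ _ (hdet x)]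
      simp [h, redMod, ModularGroup.S, Matrix.mul_apply, Fin.sum_univ_two]
    · rw [etaPow_S, eS, hS1, denom_SL]
      simp [ModularGroup.S]
  exact ⟨fun x => rootC m ^ (h x).val,
    fun x => by rw [← pow_mul, mul_comm, pow_mul, rootC_pow, one_pow],
    fun g z => (good_all w m hh1 hS hT g).2 z⟩

theorem formula_three :
    let F : ZMod 3 → ZMod 3 → ZMod 3 → ZMod 3 → ZMod 3 :=
      fun a b c d => (a + d) * c - b * d * (c * c - 1)
    F 1 0 0 1 = 0 ∧
      (∀ a b c d, a * d - b * c = 1 → F a (a + b) c (c + d) = F a b c d + F 1 1 0 1) ∧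
      (∀ a b c d, a * d - b * c = 1 → F b (-a) d (-c) = F a b c d + F 0 (-1) 1 0) ∧
      F 1 1 0 1 = 1 ∧ F 0 (-1) 1 0 = 0 := by
  decide +kernel

/-- The formula modulo four. -/
def formula4 (a b c d : ZMod 4) : ZMod 4 :=
  if c.val % 2 = 1 then c * (a + d + 1) else d * (b - c + 1) - 1

theorem formula_four : formula4 1 0 0 1 = 0 ∧
    (∀ a b c d, a * d - b * c = 1 →
      formula4 a (a + b) c (c + d) = formula4 a b c d + formula4 1 1 0 1) ∧
    (∀ a b c d, a * d - b * c = 1 →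
      formula4 b (-a) d (-c) = formula4 a b c d + formula4 0 (-1) 1 0) ∧
    formula4 1 1 0 1 = 1 ∧ formula4 0 (-1) 1 0 = 1 := by
  decide +kernel

/-- The multiplier only depends on the matrix modulo `m`. -/
theorem exists_mult (hwm : w * m = 12) (hw : w = 12 ∨ w = 4 ∨ w = 3) :
    ∃ χ : SL(2, ZMod m) → ℂ, (∀ x, χ x ^ m = 1) ∧
      ∀ (g : SL(2, ℤ)) (z : ℍ), etaPow w (g • z) = χ (redMod m g) * denom g z ^ w * etaPow w z := by
  have hI : I⁻¹ ^ 4 = 1 := by rw [inv_pow, Complex.I_pow_four, inv_one]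
  rcases hw with rfl | rfl | rfl
  · obtain rfl : m = 1 := by omega
    refine exists_mult_of_formula 12 1 hwm (fun _ _ _ _ => 0) rfl (fun a b c d _ => rfl)
      (fun a b c d _ => rfl) (Subsingleton.elim _ _) ?_
    rw [show (12 : ℕ) = 4 * 3 from rfl, pow_mul, hI]
    simp
  · obtain rfl : m = 3 := by omega
    obtain ⟨a1, a2, a3, a4, a5⟩ := formula_three
    refine exists_mult_of_formula 4 3 hwm (fun a b c d => (a + d) * c - b * d * (c * c - 1)) a1 a2 a3 a4 ?_
    rw [hI, show ((0 + 0) * 1 - -1 * 0 * (1 * 1 - 1) : ZMod 3) = 0 from a5]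
    simp
  · obtain rfl : m = 4 := by omega
    obtain ⟨a1, a2, a3, a4, a5⟩ := formula_four
    refine exists_mult_of_formula 3 4 hwm formula4 a1 a2 a3 a4 ?_
    rw [a5, show (1 : ZMod 4).val = 1 from rfl, pow_one, rootC]
    have : (2 : ℂ) * Real.pi * I / ((4 : ℕ) : ℂ) = Real.pi / 2 * I := by push_cast; ring
    rw [this, Complex.exp_pi_div_two_mul_I, inv_pow, show (3 : ℕ) = 2 + 1 from rfl, pow_succ, Complex.I_sq]
    simp

end FA.ModField.EtaQ
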