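import Fermat.Agent.ModField.Semistable.X0.ModPoly
import Fermat.Agent.ModField.Congruence.Charpoly
import Fermat.Agent.Level.Interp

/-!
# Functions without poles in the upper half plane are integral over the polynomials in `j`
-/

set_option autoImplicit false
set_option linter.style.haveILetI false
set_option linter.unusedSectionVars false
set_option synthInstance.maxHeartbeats 200000
set_option maxHeartbeats 800000

noncomputable section

namespace FA.ModField.EtaQ

open UpperHalfPlane hiding I
open Complex HahnSeries CongruenceSubgroup ModularCurve AlgebraicCurve FA.Curve Polynomial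
open scoped MatrixGroups

/-- A root of a monic relation with coefficients regular at a place is regular there. -/
theorem atLeast_of_monic {K F : Type*} [Field K] [Field F] [Algebra K F] {v : Place K F} {y z : F}
    (hy : 0 ≤ v.ord y) (n : ℕ) (c : ℕ → K[X])
    (hrel : z ^ n + ∑ m ∈ Finset.range n, aeval y (c m) * z ^ m = 0) : AtLeast v 0 z := by
  rcases eq_or_ne z 0 with rfl | hz
  · exact atLeast_zero
  refine Or.inr ?_
  by_contra hlt
  push Not at hlt
  have hc : ∀ p : K[X], AtLeast v 0 (aeval y p) := fun p => by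
    rw [aeval_eq_sum_range]
    refine atLeast_sum fun i _ => ?_
    rw [Algebra.smul_def]
    exact ((atLeast_algebraMap (v := v) _).mul
      (atLeast_pow (Or.inr hy : AtLeast v 0 y) i)).mono (by simp)
  have hsum : AtLeast v ((n : ℤ) * v.ord z + 1)
      (∑ m ∈ Finset.range n, aeval y (c m) * z ^ m) := by
    refine atLeast_sum fun m hm => ?_
    refine ((hc (c m)).mul (atLeast_pow (atLeast_ord (v := v) z) m)).mono ?_
    have hm' : (m : ℤ) + 1 ≤ n := by exact_mod_cast Finset.mem_range.1 hm
    nlinarith
  rw [add_eq_zero_iff_eq_neg] at hrel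
  rcases hsum.neg with h0 | h1
  · exact pow_ne_zero _ hz (hrel.trans h0)
  · rw [← hrel, place_ord_pow] at h1
    omega

variable {L : Type} [Field L] [Algebra L ℂ] {N : ℕ} [NeZero N]

/-- A modular function without poles in the upper half plane with series over `L` satisfies a
monic relation over `L[j]`. -/
theorem exists_monic_series {f : ℍ → ℂ} (hf : f ∈ FA.ModField.modFuns N) (r : LaurentSeries L)
    (hr : HasExp (qp 1) f (coeffMap (algebraMap L ℂ) r)) :
    ∃ (n : ℕ) (R : ℕ → Polynomial L),
      r ^ n + ∑ k ∈ Finset.range n, Polynomial.aeval (jqModC L) (R k) * r ^ k = 0 := by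
  classical
  set n := Nat.card (FA.Dim.Cos N)
  obtain ⟨P, hPn, hP⟩ := exists_modular_equation hf
  set D := (Finset.range (n + 1)).sup fun k => (P k).natDegree
  let v : Fin (n + 1) × Fin (D + 1) → LaurentSeries L := fun p =>
    jqModC L ^ (p.2 : ℕ) * r ^ (p.1 : ℕ)
  let c : Fin (n + 1) × Fin (D + 1) → ℂ := fun p => (P p.1).coeff p.2
  have hser : HasExp (qp 1) (∑ p, (fun z => c p * (jfun z ^ (p.2 : ℕ) * f z ^ (p.1 : ℕ))))
      (∑ p, HahnSeries.C (c p) * coeffMap (algebraMap L ℂ) (v p)) := by
    refine hasExp_sum _ fun p _ => ?_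
    rw [map_mul, map_pow, map_pow, coeffMap_jqModC]
    exact (hasExp_C (c p)).mul (qp_ne_zero 1)
      ((hasExp_jfun.pow (qp_ne_zero 1) _).mul (qp_ne_zero 1) (hr.pow (qp_ne_zero 1) _))
  have hzero : (∑ p, (fun z => c p * (jfun z ^ (p.2 : ℕ) * f z ^ (p.1 : ℕ)))) = 0 := by
    funext z
    rw [Pi.zero_apply, ← hP z, Finset.sum_apply, Fintype.sum_prod_type,
      ← Fin.sum_univ_eq_sum_range]
    refine Finset.sum_congr rfl fun k _ => ?_
    rw [Polynomial.eval_eq_sum_range' (n := D + 1) (by
      have := Finset.le_sup (f := fun k => (P k).natDegree) (Finset.mem_range.2 k.2)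
      omega), ← Fin.sum_univ_eq_sum_range, Finset.sum_mul]
    exact Finset.sum_congr rfl fun i _ => by simp only [c]; ring
  rw [hzero] at hser
  obtain ⟨b, hb0, hbz, hb⟩ := descent v c (hasExp_eq_zero (covers_qp 1) hser)
    (⟨n, Nat.lt_succ_self n⟩, 0) (by simp only [c, Fin.val_zero]; simp only [n]; rw [hPn, Polynomial.coeff_one_zero]) one_ne_zero
  let R : ℕ → Polynomial L := fun k =>
    if h : k < n + 1 then ∑ i : Fin (D + 1), Polynomial.C (b (⟨k, h⟩, i)) * Polynomial.X ^ (i : ℕ)
    else 0
  have hRn : R n = 1 := by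
    simp only [R, dif_pos (Nat.lt_succ_self n)]
    rw [Finset.sum_eq_single 0]
    · rw [hb0]; simp
    · intro i _ hi
      rw [hbz _ (by simp only [c, n]; rw [hPn, Polynomial.coeff_one, if_neg (fun h => hi (Fin.val_eq_zero_iff.1 h))])]
      simp
    · simp
  refine ⟨n, R, ?_⟩
  have h : ∑ k ∈ Finset.range (n + 1), Polynomial.aeval (jqModC L) (R k) * r ^ k = 0 := by
    rw [← hb, Fintype.sum_prod_type, ← Fin.sum_univ_eq_sum_range]
    refine Finset.sum_congr rfl fun k _ => ?_
    simp only [R, dif_pos k.2, map_sum, Finset.sum_mul, map_mul, map_pow, Polynomial.aeval_C,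
      Polynomial.aeval_X, Fin.eta, v, algebraMap_laurentSeries_eq_single, ← HahnSeries.C_apply]
    exact Finset.sum_congr rfl fun i _ => by ring
  rwa [Finset.sum_range_succ, hRn, map_one, one_mul, add_comm] at h

variable [Algebra ℚ L]

/-- A modular function without poles in the upper half plane is regular away from the poles of
`j`. -/
theorem atLeast_of_modFuns {f : ℍ → ℂ} (hf : f ∈ FA.ModField.modFuns N) (u : levelField N L)
    (hu : HasExp (qp 1) f (coeffMap (algebraMap L ℂ) (u : LaurentSeries L)))
    {P : Place L (levelField N L)} (hP : 0 ≤ P.ord (levelJ N L)) : AtLeast P 0 u := by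
  obtain ⟨n, R, hR⟩ := exists_monic_series hf (u : LaurentSeries L) hu
  refine atLeast_of_monic hP n R (Subtype.ext ?_)
  simp only [AddMemClass.coe_add, SubmonoidClass.coe_pow, AddSubmonoidClass.coe_finsetSum,
    MulMemClass.coe_mul, ZeroMemClass.coe_zero]
  refine Eq.trans (congrArg _ (Finset.sum_congr rfl fun m _ => congrArg (· * _) ?_)) hR
  rw [← coe_levelJ (L := L) N]
  exact (Polynomial.aeval_algHom_apply (levelField N L).val (levelJ N L) (R m)).symm

end FA.ModField.EtaQ
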