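import Fermat.Agent.ModField.Semistable.Mono.Eta.Quot
import Fermat.Agent.ModField.Semistable.Mono.Eta.Regular
import Fermat.Agent.ModField.Semistable.WSquare

/-!
# `η(az)^(2w) / η(bz)^(2w)` in the function field and its image under the Atkin–Lehner involution
-/

set_option autoImplicit false
set_option linter.style.haveILetI false
set_option linter.unusedSectionVars false
set_option synthInstance.maxHeartbeats 200000
set_option maxHeartbeats 800000

noncomputable section

namespace FA.ModField.EtaQ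

open UpperHalfPlane hiding I
open Complex HahnSeries CongruenceSubgroup ModularCurve AlgebraicCurve FA.Curve FA.Level
open scoped MatrixGroups

/-- `η(az)^(2w) / η(bz)^(2w)` is a modular function of level `N`. -/
structure Adm (N w m a b : ℕ) : Prop where
  hwm : w * m = 12
  hw : w = 12 ∨ w = 4 ∨ w = 3
  ha : a ∣ N
  hb : b ∣ N
  hab : (m : ℤ) ∣ (a : ℤ) - b
  hcop : Nat.Coprime a m

theorem Adm.m_ne {N w m a b : ℕ} (h : Adm N w m a b) : m ≠ 0 := by
  rintro rfl
  simpa using h.hwm

theorem Adm.w_le {N w m a b : ℕ} (h : Adm N w m a b) : w ≤ 12 := by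
  rcases h.hw with e | e | e <;> omega

theorem Adm.symm {N w m a b : ℕ} (h : Adm N w m a b) : Adm N w m b a := by
  refine ⟨h.hwm, h.hw, h.hb, h.ha, by simpa using h.hab.neg_right, ?_⟩
  have hg : ((Nat.gcd b m : ℕ) : ℤ) ∣ (a : ℤ) := by
    have h1 : ((Nat.gcd b m : ℕ) : ℤ) ∣ (a : ℤ) - b :=
      (Int.natCast_dvd_natCast.2 (Nat.gcd_dvd_right b m)).trans h.hab
    simpa using h1.add (Int.natCast_dvd_natCast.2 (Nat.gcd_dvd_left b m))
  exact Nat.eq_one_of_dvd_coprimes h.hcop (Int.natCast_dvd_natCast.1 hg) (Nat.gcd_dvd_right b m)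

variable {L : Type} [Field L] [Algebra L ℂ]

theorem etaSer_toC (w a b m : ℕ) [NeZero a] [NeZero b] :
    coeffMap (algebraMap L ℂ) (etaSer w a b m L) = etaSer w a b m ℂ :=
  coeffMap_etaSer w a b m _

theorem mem_modFuns {N w m a b : ℕ} [NeZero N] [NeZero a] [NeZero b] (h : Adm N w m a b) :
    etaQuot w a b ∈ FA.ModField.modFuns N := by
  haveI : NeZero m := ⟨h.m_ne⟩
  exact etaQuot_mem h.hwm h.hw h.ha h.hb h.hab h.hcop

theorem hasExp_adm {N w m a b : ℕ} [NeZero a] [NeZero b] (h : Adm N w m a b) :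
    HasExp (qp 1) (etaQuot w a b) (coeffMap (algebraMap L ℂ) (etaSer w a b m L)) := by
  rw [etaSer_toC]
  exact hasExp_etaQuot w a b h.hwm h.hab

theorem coeffMap_inj {R S : Type*} [CommRing R] [CommRing S] {φ : R →+* S}
    (hφ : Function.Injective φ) : Function.Injective (coeffMap φ) := fun x y h =>
  HahnSeries.ext (funext fun n => hφ (by
    rw [← coeffMap_coeff, ← coeffMap_coeff, h]))

variable [Algebra ℚ L]

theorem etaSer_mem {N w m a b : ℕ} [NeZero N] [NeZero a] [NeZero b] (h : Adm N w m a b) :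
    etaSer w a b m L ∈ levelField N L :=
  (lvlGamma0 N).mem_fld_of_modFuns (mem_modFuns h) _ (hasExp_adm h)

variable (L) in
/-- The function in the field. -/
def etaElt {N w m a b : ℕ} [NeZero N] [NeZero a] [NeZero b] (h : Adm N w m a b) : levelField N L :=
  ⟨etaSer w a b m L, etaSer_mem h⟩

theorem coe_etaElt {N w m a b : ℕ} [NeZero N] [NeZero a] [NeZero b] (h : Adm N w m a b) :
    (etaElt L h : LaurentSeries L) = etaSer w a b m L := rfl

theorem etaElt_ne_zero {N w m a b : ℕ} [NeZero N] [NeZero a] [NeZero b] (h : Adm N w m a b) :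
    etaElt L h ≠ 0 := fun h0 =>
  etaSer_ne_zero w a b m L (congrArg Subtype.val h0)

theorem etaElt_mul_swap {N w m a b : ℕ} [NeZero N] [NeZero a] [NeZero b] (h : Adm N w m a b) :
    etaElt L h * etaElt L h.symm = 1 := by
  refine Subtype.ext (coeffMap_inj (algebraMap L ℂ).injective ?_)
  rw [MulMemClass.coe_mul, map_mul, OneMemClass.coe_one, map_one, coe_etaElt, coe_etaElt]
  refine HasExp.unique (covers_qp 1) ?_ hasExp_one
  refine ((hasExp_adm (L := L) h).mul (qp_ne_zero 1) (hasExp_adm (L := L) h.symm)).congr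
    (funext fun z => ?_)
  exact etaQuot_mul_swap w a b h.w_le z

/-- It has neither zeros nor poles away from the poles of `j`. -/
theorem ord_etaElt {N w m a b : ℕ} [NeZero N] [NeZero a] [NeZero b] (h : Adm N w m a b)
    {P : Place L (levelField N L)} (hP : 0 ≤ P.ord (levelJ N L)) : P.ord (etaElt L h) = 0 := by
  have h1 := (atLeast_iff (etaElt_ne_zero h)).1
    (atLeast_of_modFuns (mem_modFuns h) (etaElt L h) (hasExp_adm h) hP)
  have h2 := (atLeast_iff (etaElt_ne_zero h.symm)).1
    (atLeast_of_modFuns (mem_modFuns h.symm) (etaElt L h.symm) (hasExp_adm h.symm) hP)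
  have h3 := congrArg P.ord (etaElt_mul_swap (L := L) h)
  rw [P.ord_mul (etaElt_ne_zero h) (etaElt_ne_zero h.symm), P.ord_one] at h3
  omega

end FA.ModField.EtaQ
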