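import Fermat.Agent.ModField.Semistable.Mono.Eta.Elt

/-!
# The image of the function under the Atkin–Lehner involution
-/

set_option autoImplicit false
set_option linter.style.haveILetI false
set_option linter.unusedSectionVars false
set_option synthInstance.maxHeartbeats 200000
set_option maxHeartbeats 1600000

noncomputable section

namespace FA.ModField.EtaQ

open UpperHalfPlane hiding I
open Complex HahnSeries CongruenceSubgroup ModularCurve AlgebraicCurve FA.Curve FA.Level
open scoped MatrixGroups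

variable (M q : ℕ) [NeZero M] [hq : Fact q.Prime] [hq0 : NeZero q]

/-- The image of `z` under an Atkin–Lehner matrix at `q`: it exchanges the `j(dz)` and multiplies
`η(rz)^(2w) / η(qz)^(2w)` taken at `rqz`, `z` by `q ^ w` and a root of unity. -/
theorem exists_flipPoint (hqM : ¬ q ∣ M) {w m r : ℕ} [NeZero r] (hwm : w * m = 12)
    (hw : w = 12 ∨ w = 4 ∨ w = 3) (hr : r ∣ M) (z : ℍ) :
    ∃ (z' : ℍ) (c : ℂ), c ^ m = 1 ∧
      (∀ d : DivOf M q, jfun (scaleH (d : ℕ) z') = jfun (scaleH (DivOf.swap M q d : ℕ) z)) ∧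
      etaQuot w r q z' = c * (q : ℂ) ^ w * etaQuot w (r * q) 1 z := by
  obtain ⟨χ, hχ1, hχ⟩ :=
    haveI : NeZero m := ⟨by rintro rfl; simp at hwm⟩
    exists_mult w m hwm hw
  have hw12 : w ≤ 12 := by omega
  have hqz : IsCoprime (q : ℤ) (M : ℤ) := by
    rw [Int.isCoprime_iff_gcd_eq_one, Int.gcd_natCast_natCast]
    exact hq.out.coprime_iff_not_dvd.2 hqM
  obtain ⟨x, y, hxy⟩ := hqz
  set a : ℤ := -y
  have hdet : (q : ℤ) * x - (M : ℤ) * a = 1 := by simp only [a]; linarith
  let γ : SL(2, ℤ) := ⟨!![1, a; (M : ℤ), (q : ℤ) * x], by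
    rw [Matrix.det_fin_two_of]; linarith⟩
  have hqC : (q : ℂ) ≠ 0 := Nat.cast_ne_zero.2 hq.out.ne_zero
  obtain ⟨e, he⟩ := hr
  have hM : (M : ℂ) = (r : ℂ) * e := by exact_mod_cast he
  let g₁ : SL(2, ℤ) := ⟨!![1, (r : ℤ) * a; (e : ℤ), (q : ℤ) * x], by
    rw [Matrix.det_fin_two_of]
    have : (M : ℤ) = (r : ℤ) * e := by exact_mod_cast he
    rw [this] at hdet; linarith⟩
  let g₂ : SL(2, ℤ) := ⟨!![(q : ℤ), a; (M : ℤ), x], by
    rw [Matrix.det_fin_two_of]; linarith⟩
  have hD : (M : ℂ) * (z : ℂ) + (x : ℂ) ≠ 0 := by simpa [g₂] using smul_denom_ne g₂ z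
  have k₁ : scaleH r (γ • scaleH q z) = g₁ • scaleH (r * q) z := by
    refine UpperHalfPlane.ext ?_
    rw [coe_scaleH, UpperHalfPlane.coe_specialLinearGroup_apply,
      UpperHalfPlane.coe_specialLinearGroup_apply, coe_scaleH, coe_scaleH]
    simp [γ, g₁, hM]
    rw [show (r : ℂ) * e * (q * z) + q * x = e * (r * q * z) + q * x by ring, ← mul_div_assoc]
    congr 1
    ring
  have k₂ : scaleH q (γ • scaleH q z) = g₂ • z := by
    refine UpperHalfPlane.ext ?_
    rw [coe_scaleH, UpperHalfPlane.coe_specialLinearGroup_apply,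
      UpperHalfPlane.coe_specialLinearGroup_apply, coe_scaleH]
    simp [γ, g₂]
    rw [show (M : ℂ) * (q * z) + q * x = q * (M * z + x) by ring]
    field_simp
  have d₂ : denom g₂ z = (M : ℂ) * z + x := by
    rw [denom_SL]; simp [g₂]
  have d₁ : denom g₁ (scaleH (r * q) z) = (q : ℂ) * ((M : ℂ) * z + x) := by
    rw [denom_SL, coe_scaleH, hM]
    simp [g₁]
    ring
  have h1 : scaleH 1 z = z := UpperHalfPlane.ext (by rw [coe_scaleH]; simp)
  refine ⟨γ • scaleH q z, χ (redMod m g₁) / χ (redMod m g₂), ?_, fun d => ?_, ?_⟩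
  · rw [div_pow, hχ1, hχ1, div_one]
  · by_cases h : q ∣ (d : ℕ)
    · obtain ⟨e, he⟩ := h
      obtain ⟨f, hf⟩ : e ∣ M := by
        have := div_dvd_of_dvd_mul M q (DivOf.dvd M q d) ⟨e, he⟩
        rwa [he, Nat.mul_div_cancel_left _ hq.out.pos] at this
      haveI : NeZero e := ⟨fun h0 => (NeZero.ne (d : ℕ)) (by rw [he, h0, mul_zero])⟩
      have hswap : (DivOf.swap M q d : ℕ) = e := by
        show swapDiv q (d : ℕ) = e
        rw [swapDiv, if_pos ⟨e, he⟩, he, Nat.mul_div_cancel_left _ hq.out.pos]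
      let γ' : SL(2, ℤ) := ⟨!![(q : ℤ), (e : ℤ) * a; (f : ℤ), x], by
        rw [Matrix.det_fin_two_of]
        have : (M : ℤ) = (e : ℤ) * f := by exact_mod_cast hf
        rw [this] at hdet; linarith⟩
      have key : scaleH (d : ℕ) (γ • scaleH q z) =
          γ' • scaleH (DivOf.swap M q d : ℕ) z := by
        refine UpperHalfPlane.ext ?_
        rw [coe_scaleH, UpperHalfPlane.coe_specialLinearGroup_apply,
          UpperHalfPlane.coe_specialLinearGroup_apply, coe_scaleH, coe_scaleH, hswap, he]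
        have hM : (M : ℂ) = (e : ℂ) * f := by exact_mod_cast hf
        simp [γ, γ', hM]
        rw [show (e : ℂ) * f * (q * z) + q * x = q * (f * (e * z) + x) by ring]
        by_cases hden : (f : ℂ) * (e * z) + x = 0
        · simp [hden]
        field_simp
      rw [key, jfun_smul]
    · obtain ⟨f, hf⟩ := dvd_of_dvd_mul_of_not_dvd M q (DivOf.dvd M q d) h
      have hswap : (DivOf.swap M q d : ℕ) = (d : ℕ) * q := by
        show swapDiv q (d : ℕ) = _
        rw [swapDiv, if_neg h]
      let γ' : SL(2, ℤ) := ⟨!![1, ((d : ℕ) : ℤ) * a; (f : ℤ), (q : ℤ) * x], by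
        rw [Matrix.det_fin_two_of]
        have : (M : ℤ) = ((d : ℕ) : ℤ) * f := by exact_mod_cast hf
        rw [this] at hdet; linarith⟩
      have key : scaleH (d : ℕ) (γ • scaleH q z) =
          γ' • scaleH (DivOf.swap M q d : ℕ) z := by
        refine UpperHalfPlane.ext ?_
        rw [coe_scaleH, UpperHalfPlane.coe_specialLinearGroup_apply,
          UpperHalfPlane.coe_specialLinearGroup_apply, coe_scaleH, coe_scaleH, hswap]
        have hM : (M : ℂ) = ((d : ℕ) : ℂ) * f := by exact_mod_cast hf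
        simp [γ, γ', hM]
        rw [show ((d : ℕ) : ℂ) * f * (q * z) + q * x = f * ((d : ℕ) * q * z) + q * x by ring,
          ← mul_div_assoc]
        congr 1
        ring
      rw [key, jfun_smul]
  · have hχ0 : χ (redMod m g₂) ≠ 0 := fun h0 => by
      have hm : m ≠ 0 := by rintro rfl; simp at hwm
      have := hχ1 (redMod m g₂)
      rw [h0, zero_pow hm] at this
      exact zero_ne_one this
    rw [etaQuot_eq w r q hw12, etaQuot_eq w (r * q) 1 hw12, k₁, k₂, h1, hχ, hχ, d₁, d₂, mul_pow]
    have := pow_ne_zero w hD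
    have := etaPow_ne_zero w z
    field_simp

variable {M q}
variable {L : Type} [Field L] [Algebra ℚ L] [Algebra L ℂ]

/-- The image under the involution, up to a constant of which the `m`-th power is `q ^ 12`. -/
theorem exists_wLvl_etaElt (hqM : ¬ q ∣ M) {w m r : ℕ} [NeZero r] (hr : r ∣ M)
    (h : Adm (M * q) w m r q) (h' : Adm (M * q) w m (r * q) 1) :
    ∃ d : L, d ^ m = (q : L) ^ (w * m) ∧
      wLvl M q L hqM (etaElt L h) =
        algebraMap L (levelField (M * q) L) d * etaElt L h' := by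
  haveI : NeZero m := ⟨h.m_ne⟩
  set N := M * q
  obtain ⟨A, B, hB, e⟩ := exists_fraction_eq (lvlEquiv L N (etaElt L h))
  have hser : etaSer w r q m L * (B : LaurentSeries L) = (A : LaurentSeries L) := by
    have := congrArg Subtype.val e
    rwa [MulMemClass.coe_mul, coe_lvlEquiv, coe_etaElt] at this
  have hfun : etaQuot w r q * funHom B = funHom A := by
    refine ((hasExp_adm (L := L) h).mul (qp_ne_zero 1) (funHom_exp B)).fun_unique ?_
    rw [← map_mul, hser]
    exact funHom_exp A
  set B' := alAlg M q L hqM B with hB'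
  set A' := alAlg M q L hqM A with hA'
  have hB'0 : B' ≠ 0 := fun h0 => hB (alAlg_injective M q L hqM (h0.trans (map_zero _).symm))
  have hw' : (wLvl M q L hqM (etaElt L h) : LaurentSeries L) * (B' : LaurentSeries L) =
      (A' : LaurentSeries L) := by
    have h1 := congrArg (alHom M q L hqM) e
    rw [map_mul] at h1
    rw [show (⟨(B : LaurentSeries L), IntermediateField.algebra_adjoin_le_adjoin L _ B.2⟩ :
      modularFunctionFieldFullC L N) = algebraMap (genAlg L N) _ B from rfl,
      show (⟨(A : LaurentSeries L), IntermediateField.algebra_adjoin_le_adjoin L _ A.2⟩ :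
      modularFunctionFieldFullC L N) = algebraMap (genAlg L N) _ A from rfl, alHom_coe,
      alHom_coe] at h1
    have h2 := congrArg Subtype.val h1
    rw [MulMemClass.coe_mul] at h2
    exact h2
  -- at the point `z'`
  have hval : ∀ z, ∃ c : ℂ, c ^ m = 1 ∧
      c * (q : ℂ) ^ w * (etaQuot w (r * q) 1 z * funHom B' z) = funHom A' z := by
    intro z
    obtain ⟨z', c, hc, hj, hz'⟩ := exists_flipPoint M q hqM h.hwm h.hw hr z
    have key : ∀ G : genAlg L N, funHom (alAlg M q L hqM G) z = funHom G z' := fun G => by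
      obtain ⟨P, rfl⟩ := genEval_surjective M q L G
      rw [alAlg_genEval, funHom_genEval, swapPoly, MvPolynomial.eval₂_rename, funHom_genEval]
      congr 1
      exact funext fun d => (hj d).symm
    refine ⟨c, hc, ?_⟩
    rw [key, key, ← congrFun hfun z', Pi.mul_apply, hz']
    ring
  choose c hc hcv using hval
  -- the root of unity is a quotient of series, hence constant
  set S₁ : LaurentSeries ℂ := coeffMap (algebraMap L ℂ) (etaSer w (r * q) 1 m L) *
    coeffMap (algebraMap L ℂ) (B' : LaurentSeries L)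
  have hS₁ : S₁ ≠ 0 := mul_ne_zero
    (fun h0 => etaSer_ne_zero w (r * q) 1 m L (coeffMap_inj (algebraMap L ℂ).injective
      (h0.trans (map_zero _).symm)))
    (fun h0 => hB'0 (Subtype.ext (coeffMap_inj (algebraMap L ℂ).injective
      (h0.trans (map_zero _).symm))))
  have hpow : (HahnSeries.C ((q : ℂ) ^ w) * S₁) ^ m =
      coeffMap (algebraMap L ℂ) (A' : LaurentSeries L) ^ m := by
    refine HasExp.unique (covers_qp 1) ?_ ((funHom_exp A').pow (qp_ne_zero 1) m)
    refine (((hasExp_C ((q : ℂ) ^ w)).mul (qp_ne_zero 1)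
      ((hasExp_adm (L := L) h').mul (qp_ne_zero 1) (funHom_exp B'))).pow (qp_ne_zero 1) m).congr
        (funext fun z => ?_)
    simp only [Pi.pow_apply, Pi.mul_apply]
    rw [← hcv z, mul_assoc (c z), mul_pow (c z), hc z, one_mul]
  obtain ⟨K, hK, hCser⟩ : ∃ K : ℂ, K ^ m = (q : ℂ) ^ (w * m) ∧
      HahnSeries.C K * S₁ = coeffMap (algebraMap L ℂ) (A' : LaurentSeries L) := by
    have hT : HahnSeries.C ((q : ℂ) ^ w) * S₁ ≠ 0 :=
      mul_ne_zero (by rw [map_ne_zero_iff _ HahnSeries.C_injective]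
                      exact pow_ne_zero _ (Nat.cast_ne_zero.2 hq.out.ne_zero)) hS₁
    set ρ := coeffMap (algebraMap L ℂ) (A' : LaurentSeries L) /
      (HahnSeries.C ((q : ℂ) ^ w) * S₁)
    have hρ : ρ ^ m = 1 := by
      rw [div_pow, ← hpow, div_self (pow_ne_zero _ hT)]
    obtain ⟨i, -, hi⟩ := ((Complex.isPrimitiveRoot_exp m (NeZero.ne m)).map_of_injective
      (f := (HahnSeries.C : ℂ →+* LaurentSeries ℂ)) HahnSeries.C_injective).eq_pow_of_pow_eq_one hρ
    refine ⟨cexp (2 * Real.pi * I / m) ^ i * (q : ℂ) ^ w, ?_, ?_⟩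
    · rw [mul_pow, ← pow_mul, mul_comm i m, pow_mul,
        (Complex.isPrimitiveRoot_exp m (NeZero.ne m)).pow_eq_one, one_pow, one_mul, ← pow_mul]
    · rw [map_mul, map_pow, hi, mul_assoc, div_mul_cancel₀ _ hT]
  have hWC : coeffMap (algebraMap L ℂ) (wLvl M q L hqM (etaElt L h) : LaurentSeries L) =
      HahnSeries.C K * coeffMap (algebraMap L ℂ) (etaSer w (r * q) 1 m L) := by
    refine mul_right_cancel₀ (b := coeffMap (algebraMap L ℂ) (B' : LaurentSeries L)) ?_ ?_
    · exact fun h0 => hB'0 (Subtype.ext (coeffMap_inj (algebraMap L ℂ).injective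
        (h0.trans (map_zero _).symm)))
    · rw [← map_mul, hw', mul_assoc]
      exact hCser.symm
  set n₀ : ℤ := (((r * q : ℕ) : ℤ) - (1 : ℕ)) / m
  set d := (wLvl M q L hqM (etaElt L h) : LaurentSeries L).coeff n₀ with hd
  have hdK : algebraMap L ℂ d = K := by
    have := congrArg (fun s : LaurentSeries ℂ => s.coeff n₀) hWC
    simp only [coeffMap_coeff, HahnSeries.C_apply, coeff_single_zero_mul] at this
    rw [etaSer_coeff_lead, map_one, mul_one] at this
    exact this
  refine ⟨d, (algebraMap L ℂ).injective (by rw [map_pow, map_pow, hdK, map_natCast]; exact hK),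
    Subtype.ext (coeffMap_inj (algebraMap L ℂ).injective ?_)⟩
  rw [hWC, MulMemClass.coe_mul, map_mul, coe_etaElt, IntermediateField.coe_algebraMap_apply,
    algebraMap_laurentSeries_eq_single, coeffMap_single, hdK, HahnSeries.C_apply]

end FA.ModField.EtaQ
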